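/-
S43lib / B0 / Pkg / Core  (helper6)  — Project H, block B0 (Mazur's principle).

THE TAME GEOMETRIC PACKAGE WITHOUT `old`  (`TameCore` = `B0.TamePackage` of `B0/Iface.lean` minus the field
`old`, which is helper8's `B0/Lift/Old`).

Concrete model at level `M q` (`q ∤ M`, `q ≥ 5`), `A` a place of `ℚ̄` over `q`, torsion exponent `p`
(a prime `≥ 5`, `p ≠ q`); `D = Kap.modNod hqM hA` the modular nodal datum (both components `FRes A M`):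

* `Ω  = Om A (FRes A M) p × Om A (FRes A M) p`,  `R = (nodes → ZMod p)²`;
* `Ψ  = Kap.psi D p`          (`tPsi`),    `res = Kap.resMap D p`             (`tRes`);
* `TΩ ℓ = Q4.heckeOmPair A M ℓ p` (`tTΩ`), `TR ℓ = Q4.nodeHomPair ℓ D p`     (`tTR`, `0` if `q ∣ M ℓ`);
* `Eis = Q4.eisSub D p`       (`tEis`),    `K = toricPart D p`                (`tK`);
* `w   = wqJHom hqM`          (Atkin–Lehner `w_q` on `J₀(M q)`).

* `structure TameCore N r p A`;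
* `tameCoreOfCtx hqM hA p C hq2 hp5 hpq hmono : TameCore (M * q) q p A` : the core from a nodal context
  `C` of the modular nodal datum (any good pair), `q ≠ 2`, and the tame `(M′)`;
* **`tameCoreMod hqM hA p h5 hp5 hpq : TameCore (M * q) q p A`** (`q ≥ 5`) and
  **`tameCoreThree hqM hA p hq3 h4 hp5 : TameCore (M * q) q p A`** (`q = 3`, `4 ∣ M`), all fields
  `rfl`-transparent (`tameCoreOfCtx_Ψ`, `_res`, `_TΩ`, …);
* **`tameCore_exists`** : at every level `N`, `r ∥ N`, `r ≥ 5`: `N = M * r` and the core exists;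
* **`tameCore_exists_three`** : at every level `N`, `3 ∥ N`, `4 ∣ N`.
-/
import Fermat.Agent.S43lib.B0.Toric.Ker
import Fermat.Agent.S43lib.B0.Toric.TameEis
import Fermat.Agent.S43lib.B0.Toric.AntiFrobMod
import Fermat.Agent.S43lib.B0.Toric.Gen.Tame
import Fermat.Agent.S44lib.Q4.Inst

set_option autoImplicit false
set_option linter.unusedSectionVars false
set_option linter.style.haveILetI false

noncomputable section

namespace Fermat.Agent.S43lib.B0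

open AlgebraicCurve ModularCurve Fermat.Agent.S18lib Fermat.Agent.S37lib
open Fermat.Agent.LSb Fermat.Agent.LSb.Unit Fermat.Agent.S19lib
open Fermat.Agent.S44lib Fermat.Agent.S44lib.Kap Fermat.Agent.S44lib.Q4

local notation "Qb" => AlgebraicClosure ℚ
local notation "GQ" => (AlgebraicClosure ℚ ≃ₐ[ℚ] AlgebraicClosure ℚ)

/-- **the tame geometric package without `old`** (see `B0.TamePackage`). -/
structure TameCore (N : ℕ) [NeZero N] (r p : ℕ) (A : ValuationSubring Qb) where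
  /-- target of `Ψ`: a pair of Kummer classes on the two components -/
  Ω : Type
  [instΩ : AddCommGroup Ω]
  /-- node orders -/
  R : Type
  [instR : AddCommGroup R]
  /-- `Ψ` (only its values on `J[p]` matter) -/
  Ψ : JZero N → Ω
  /-- the node order map -/
  res : Ω →+ R
  /-- Hecke operators on `Ω` -/
  TΩ : Nat.Primes → (Ω →+ Ω)
  /-- Hecke operators on the node orders -/
  TR : Nat.Primes → (R →+ R)
  /-- the Eisenstein subgroup -/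
  Eis : AddSubgroup R
  /-- the toric part of `J[p]` -/
  K : AddSubgroup (JZero N)
  /-- the Atkin–Lehner involution `w_r` -/
  w : JZero N →+ JZero N
  Ψ_add : ∀ x ∈ tors N (p : ℤ), ∀ y ∈ tors N (p : ℤ), Ψ (x + y) = Ψ x + Ψ y
  Ψ_hecke : ∀ ℓ : Nat.Primes, ¬ (ℓ : ℕ) ∣ N → ∀ x ∈ tors N (p : ℤ),
    Ψ (heckeOperatorBar N ℓ x) = TΩ ℓ (Ψ x)
  res_hecke : ∀ ℓ : Nat.Primes, ¬ (ℓ : ℕ) ∣ N → ∀ x ∈ tors N (p : ℤ),
    res (TΩ ℓ (Ψ x)) = TR ℓ (res (Ψ x))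
  K_le : K ≤ tors N (p : ℤ)
  mem_K : ∀ x ∈ tors N (p : ℤ), x ∈ K ↔ Ψ x = 0
  p_smul_R : ∀ ρ : R, (p : ℤ) • ρ = 0
  mono : ∀ x ∈ tors N (p : ℤ), (∀ σ ∈ IA A, σ • x = x) → res (Ψ x) ∈ Eis
  eis : ∀ ℓ : Nat.Primes, ¬ (ℓ : ℕ) ∣ N → (ℓ : ℕ) ≠ p → ∀ ρ ∈ Eis, TR ℓ ρ = ((ℓ : ℕ) + 1 : ℤ) • ρ
  w_galois : ∀ (σ : GQ) (x : JZero N), w (σ • x) = σ • w x
  w_invol : ∀ x : JZero N, w (w x) = x
  frobK : ∀ φ : GQ, A.IsFrobeniusAt φ r → ∀ x ∈ K, φ • x = -((r : ℤ) • w x)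

attribute [instance] TameCore.instΩ TameCore.instR

variable {M q : ℕ} [NeZero M] [NeZero q] [hq : Fact q.Prime] {A : ValuationSubring Qb}

local notation "kA" => IsLocalRing.ResidueField A

variable (hqM : ¬ q ∣ M) (hA : A.LiesOverPrime q) (p : ℕ)

/-! ### the concrete objects -/

/-- the target of `Ψ` -/
abbrev TOm (A : ValuationSubring Qb) (M p : ℕ) [NeZero M] : Type :=
  Om A (FRes A M) p × Om A (FRes A M) p

/-- the node orders, on both components -/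
abbrev TRes : Type := (Fin (modNod hqM hA).s → ZMod p) × (Fin (modNod hqM hA).s → ZMod p)

/-- **`Ψ`** -/
def tPsi (x : JZero (M * q)) : TOm A M p := psi (modNod hqM hA) p x

/-- **`res`** -/
def tRes : TOm A M p →+ TRes hqM hA p := resMap (modNod hqM hA) p

/-- **`TΩ ℓ`**: `T̄_ℓ` on both components -/
def tTΩ (A : ValuationSubring Qb) (M p : ℕ) [NeZero M] (ℓ : Nat.Primes) : TOm A M p →+ TOm A M p :=
  haveI : NeZero (ℓ : ℕ) := ⟨ℓ.2.ne_zero⟩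
  heckeOmPair A M (ℓ : ℕ) p

/-- **`TR ℓ`**: the node matrices of `T̄_ℓ` (`0` if `q ∣ M ℓ`) -/
def tTR (ℓ : Nat.Primes) : TRes hqM hA p →+ TRes hqM hA p :=
  haveI : NeZero (ℓ : ℕ) := ⟨ℓ.2.ne_zero⟩
  if h : ¬ q ∣ M * (ℓ : ℕ) then
    haveI : HasPrincipalDivisors kA (FRes A (M * (ℓ : ℕ))) := modHpdK h hA
    nodeHomPair (ℓ : ℕ) (modNod hqM hA) p
  else 0

/-- **`Eis`** -/
def tEis : AddSubgroup (TRes hqM hA p) := eisSub (modNod hqM hA) p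

/-- **`K`**: the toric part -/
def tK : AddSubgroup (JZero (M * q)) := toricPart (modNod hqM hA) p

theorem tTR_of_not_dvd (ℓ : Nat.Primes) (h : ¬ q ∣ M * (ℓ : ℕ)) :
    tTR hqM hA p ℓ =
      (haveI : NeZero (ℓ : ℕ) := ⟨ℓ.2.ne_zero⟩
       haveI : HasPrincipalDivisors kA (FRes A (M * (ℓ : ℕ))) := modHpdK h hA
       nodeHomPair (ℓ : ℕ) (modNod hqM hA) p) := by
  unfold tTR
  exact dif_pos h

/-! ### the fields -/

theorem smul_eq_zero_of_mem_tors' {N : ℕ} [NeZero N] {m : ℤ} {x : JZero N} (hx : x ∈ tors N m) :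
    m • x = 0 :=
  (Submodule.mem_torsionBy_iff _ _).1 hx

/-- `Ψ_add` -/
theorem tPsi_add : ∀ x ∈ tors (M * q) (p : ℤ), ∀ y ∈ tors (M * q) (p : ℤ),
    tPsi hqM hA p (x + y) = tPsi hqM hA p x + tPsi hqM hA p y := fun _ hx _ hy =>
  psi_add (modG_spec M q) (smul_eq_zero_of_mem_tors' hx) (smul_eq_zero_of_mem_tors' hy)

/-- `Ψ_hecke` -/
theorem tPsi_hecke (ℓ : Nat.Primes) (hℓN : ¬ (ℓ : ℕ) ∣ M * q)
    (x : JZero (M * q)) (hx : x ∈ tors (M * q) (p : ℤ)) :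
    tPsi hqM hA p (heckeOperatorBar (M * q) ℓ x) = tTΩ A M p ℓ (tPsi hqM hA p x) := by
  haveI : NeZero (ℓ : ℕ) := ⟨ℓ.2.ne_zero⟩
  exact psi_heckeOperatorBar (modNod hqM hA) hqM (modD1_isGaussOne hqM hA)
    (fun _ hy => Val.gaussOne_O_le M q A hqM hA hy) (modD2'_isGaussTwo hqM hA) hA
    (modG_spec M q) ℓ.2 hℓN (smul_eq_zero_of_mem_tors' hx)

/-- `K_le` -/
theorem tK_le : tK hqM hA p ≤ tors (M * q) (p : ℤ) := fun x hx => by
  show x ∈ Submodule.torsionBy ℤ (JZero (M * q)) (p : ℤ)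
  rw [Submodule.mem_torsionBy_iff]
  exact zsmul_eq_zero_of_mem_toricPart hx

section Ctx

variable (C : NodalCtx (modNod hqM hA) (modG M q) (modGk hqM hA) (modGk hqM hA))

include C in
/-- `res_hecke` -/
theorem tRes_hecke (ℓ : Nat.Primes) (hℓN : ¬ (ℓ : ℕ) ∣ M * q)
    (x : JZero (M * q)) (hx : x ∈ tors (M * q) (p : ℤ)) :
    tRes hqM hA p (tTΩ A M p ℓ (tPsi hqM hA p x)) =
      tTR hqM hA p ℓ (tRes hqM hA p (tPsi hqM hA p x)) := by
  haveI : NeZero (ℓ : ℕ) := ⟨ℓ.2.ne_zero⟩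
  have hqMℓ : ¬ q ∣ M * (ℓ : ℕ) := S35lib.New.wqHecke_not_dvd M q hq.out hqM ℓ.2 hℓN
  haveI : HasPrincipalDivisors kA (FRes A M) := modHpdK hqM hA
  haveI : HasPrincipalDivisors kA (FRes A (M * (ℓ : ℕ))) := modHpdK hqMℓ hA
  rw [tTR_of_not_dvd hqM hA p ℓ hqMℓ]
  have hx0 := smul_eq_zero_of_mem_tors' hx
  exact resMap_heckeOmPair (modNod hqM hA) (modX₁_injective hA) modX₂_injective hA hqMℓ
    (deg_eq_one_FRes hA hqMℓ) p _
    (fun Q hQ => ordHom_psi_eq_zero_of_ne₁ (Gen.modNRedC hqM hA C) C hx0 hQ)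
    (fun Q hQ => ordHom_psi_eq_zero_of_ne₂ (Gen.modNRedC hqM hA C) C hx0 hQ)

/-- `eis` -/
theorem tEis_hecke (hq2 : q ≠ 2) (ℓ : Nat.Primes) (hℓN : ¬ (ℓ : ℕ) ∣ M * q)
    (ρ : TRes hqM hA p) (hρ : ρ ∈ tEis hqM hA p) :
    tTR hqM hA p ℓ ρ = (((ℓ : ℕ) : ℤ) + 1) • ρ := by
  haveI : NeZero (ℓ : ℕ) := ⟨ℓ.2.ne_zero⟩
  haveI : Fact (ℓ : ℕ).Prime := ⟨ℓ.2⟩
  have hqMℓ : ¬ q ∣ M * (ℓ : ℕ) := S35lib.New.wqHecke_not_dvd M q hq.out hqM ℓ.2 hℓN
  have hℓM : ¬ (ℓ : ℕ) ∣ M := fun h => hℓN (h.trans (Dvd.intro q rfl))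
  have hqℓ : q ≠ (ℓ : ℕ) := by
    intro h
    exact hℓN (h ▸ Dvd.intro_left M rfl)
  haveI : HasPrincipalDivisors kA (FRes A M) := modHpdK hqM hA
  haveI : HasPrincipalDivisors kA (FRes A (M * (ℓ : ℕ))) := modHpdK hqMℓ hA
  rw [tTR_of_not_dvd hqM hA p ℓ hqMℓ]
  exact nodeHomPair_eq_smul_of_mem_eisSub (modNod hqM hA) (modX₁_injective hA) modX₂_injective hA
    hq2 hqℓ hqMℓ hℓM (deg_eq_one_FRes hA hqMℓ) (modD1_isGaussOne hqM hA)
    (mem_modNodes_iff_modX₁ hA (modD1_isGaussOne hqM hA))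
    (mem_modNodes_iff_modX₂ (modD1_isGaussOne hqM hA)) p hρ

include C in
/-- `mem_K` -/
theorem mem_tK (hp : 0 < p) : ∀ x ∈ tors (M * q) (p : ℤ),
    x ∈ tK hqM hA p ↔ tPsi hqM hA p x = 0 := by
  intro x hx
  have hne : (modNod hqM hA).V₁.O ≠ (modNod hqM hA).V₂.O :=
    Frame.O_ne hqM hA (modD1_isGaussOne hqM hA) (modD2'_isGaussTwo hqM hA)
      (fun y => Val.wq_wq M q hq.out hqM y)
  have hroot : ∀ c : Qb, ∃ d : Qb, d ^ p = c := fun c =>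
    IsAlgClosed.exists_pow_nat_eq c hp
  exact (psi_eq_zero_iff_mem_toricPart C hne hp hroot (smul_eq_zero_of_mem_tors' hx)).symm

include C in
/-- `frobK` -/
theorem tFrobK (hpq : ¬ q ∣ p) :
    ∀ φ : GQ, A.IsFrobeniusAt φ q → ∀ x ∈ tK hqM hA p, φ • x = -((q : ℤ) • wqJHom hqM x) :=
  fun _ hφ _ hx => frob_smul_eq_neg_of_mem_toricPartC hqM hA C hφ hpq hx

end Ctx

theorem not_dvd_twelve [Fact p.Prime] (hp5 : 5 ≤ p) : ¬ p ∣ 12 := by
  intro h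
  have hp : p.Prime := Fact.out
  have : p ∣ 2 ^ 2 * 3 := by norm_num; exact h
  rcases (Nat.Prime.dvd_mul hp).1 this with h | h
  · have := (Nat.prime_dvd_prime_iff_eq hp Nat.prime_two).1 (hp.dvd_of_dvd_pow h)
    omega
  · have := (Nat.prime_dvd_prime_iff_eq hp Nat.prime_three).1 h
    omega

/-- `mono`, `q ≥ 5` -/
theorem tMono (h5 : 5 ≤ q) [Fact p.Prime] (hp5 : 5 ≤ p) :
    ∀ x ∈ tors (M * q) (p : ℤ), (∀ σ ∈ IA A, σ • x = x) →
      tRes hqM hA p (tPsi hqM hA p x) ∈ tEis hqM hA p :=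
  fun _ hx hfix => resMap_psi_mem_eisSub_tame hqM hA h5 (not_dvd_twelve p hp5) hx hfix

/-- `mono`, `q = 3`, `4 ∣ M` -/
theorem tMono_three (hq3 : q = 3) (h4 : 4 ∣ M) [Fact p.Prime] (hp5 : 5 ≤ p) :
    ∀ x ∈ tors (M * q) (p : ℤ), (∀ σ ∈ IA A, σ • x = x) →
      tRes hqM hA p (tPsi hqM hA p x) ∈ tEis hqM hA p :=
  fun _ hx hfix => Gen.resMap_psi_mem_eisSub_three hqM hA hq3 h4 (not_dvd_twelve p hp5) hx hfix

/-! ### the package -/

/-- **the tame core at level `M q` from a nodal context** of the modular nodal datum, `q ≠ 2`, `A ∣ q`,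
torsion exponent a prime `p ≥ 5`, `p ≠ q`, and the tame `(M′)`. -/
def tameCoreOfCtx (C : NodalCtx (modNod hqM hA) (modG M q) (modGk hqM hA) (modGk hqM hA))
    (hq2 : q ≠ 2) [Fact p.Prime] (hp5 : 5 ≤ p) (hpq : p ≠ q)
    (hmono : ∀ x ∈ tors (M * q) (p : ℤ), (∀ σ ∈ IA A, σ • x = x) →
      tRes hqM hA p (tPsi hqM hA p x) ∈ tEis hqM hA p) :
    TameCore (M * q) q p A where
  Ω := TOm A M p
  R := TRes hqM hA p
  Ψ := tPsi hqM hA p
  res := tRes hqM hA p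
  TΩ := tTΩ A M p
  TR := tTR hqM hA p
  Eis := tEis hqM hA p
  K := tK hqM hA p
  w := wqJHom hqM
  Ψ_add := tPsi_add hqM hA p
  Ψ_hecke := tPsi_hecke hqM hA p
  res_hecke := tRes_hecke hqM hA p C
  K_le := tK_le hqM hA p
  mem_K := mem_tK hqM hA p C (by omega)
  p_smul_R := fun ρ => m_smul_res p ρ
  mono := hmono
  eis := fun ℓ hℓN _ ρ hρ => tEis_hecke hqM hA p hq2 ℓ hℓN ρ hρ
  w_galois := wqJHom_galois hqM
  w_invol := wqJHom_wqJHom hqM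
  frobK := tFrobK hqM hA p C (fun h =>
    hpq ((Nat.prime_dvd_prime_iff_eq hq.out (Fact.out : p.Prime)).1 h).symm)

section Rfl

variable (C : NodalCtx (modNod hqM hA) (modG M q) (modGk hqM hA) (modGk hqM hA))
    (hq2 : q ≠ 2) [Fact p.Prime] (hp5 : 5 ≤ p) (hpq : p ≠ q)
    (hmono : ∀ x ∈ tors (M * q) (p : ℤ), (∀ σ ∈ IA A, σ • x = x) →
      tRes hqM hA p (tPsi hqM hA p x) ∈ tEis hqM hA p)

theorem tameCoreOfCtx_Ω : (tameCoreOfCtx hqM hA p C hq2 hp5 hpq hmono).Ω = TOm A M p := rfl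

theorem tameCoreOfCtx_R : (tameCoreOfCtx hqM hA p C hq2 hp5 hpq hmono).R = TRes hqM hA p := rfl

theorem tameCoreOfCtx_Ψ : (tameCoreOfCtx hqM hA p C hq2 hp5 hpq hmono).Ψ = tPsi hqM hA p := rfl

theorem tameCoreOfCtx_res :
    (tameCoreOfCtx hqM hA p C hq2 hp5 hpq hmono).res = tRes hqM hA p := rfl

theorem tameCoreOfCtx_TΩ : (tameCoreOfCtx hqM hA p C hq2 hp5 hpq hmono).TΩ = tTΩ A M p := rfl

theorem tameCoreOfCtx_TR :
    (tameCoreOfCtx hqM hA p C hq2 hp5 hpq hmono).TR = tTR hqM hA p := rfl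

theorem tameCoreOfCtx_Eis :
    (tameCoreOfCtx hqM hA p C hq2 hp5 hpq hmono).Eis = tEis hqM hA p := rfl

theorem tameCoreOfCtx_K : (tameCoreOfCtx hqM hA p C hq2 hp5 hpq hmono).K = tK hqM hA p := rfl

theorem tameCoreOfCtx_w : (tameCoreOfCtx hqM hA p C hq2 hp5 hpq hmono).w = wqJHom hqM := rfl

end Rfl

/-- **the tame core at level `M q`**, `q ≥ 5`, `q ∤ M`, `A ∣ q`, torsion exponent a prime `p ≥ 5`,
`p ≠ q`. -/
def tameCoreMod (h5 : 5 ≤ q) [Fact p.Prime] (hp5 : 5 ≤ p) (hpq : p ≠ q) :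
    TameCore (M * q) q p A :=
  tameCoreOfCtx hqM hA p (modCtx hqM hA h5) (by omega) hp5 hpq (tMono hqM hA p h5 hp5)

/-- **the tame core at level `M · 3`**, `4 ∣ M`, `3 ∤ M`, `A ∣ 3`, torsion exponent a prime `p ≥ 5`. -/
def tameCoreThree (hq3 : q = 3) (h4 : 4 ∣ M) [Fact p.Prime] (hp5 : 5 ≤ p) :
    TameCore (M * q) q p A :=
  tameCoreOfCtx hqM hA p (Gen.modCtxG hqM hA (Or.inr (Or.inr ⟨hq3, h4⟩))) (by omega) hp5
    (by omega) (tMono_three hqM hA p hq3 h4 hp5)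

section Rfl

variable (h5 : 5 ≤ q) [Fact p.Prime] (hp5 : 5 ≤ p) (hpq : p ≠ q)

theorem tameCoreMod_Ω : (tameCoreMod hqM hA p h5 hp5 hpq).Ω = TOm A M p := rfl

theorem tameCoreMod_R : (tameCoreMod hqM hA p h5 hp5 hpq).R = TRes hqM hA p := rfl

theorem tameCoreMod_Ψ : (tameCoreMod hqM hA p h5 hp5 hpq).Ψ = tPsi hqM hA p := rfl

theorem tameCoreMod_res : (tameCoreMod hqM hA p h5 hp5 hpq).res = tRes hqM hA p := rfl

theorem tameCoreMod_TΩ : (tameCoreMod hqM hA p h5 hp5 hpq).TΩ = tTΩ A M p := rfl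

theorem tameCoreMod_TR : (tameCoreMod hqM hA p h5 hp5 hpq).TR = tTR hqM hA p := rfl

theorem tameCoreMod_Eis : (tameCoreMod hqM hA p h5 hp5 hpq).Eis = tEis hqM hA p := rfl

theorem tameCoreMod_K : (tameCoreMod hqM hA p h5 hp5 hpq).K = tK hqM hA p := rfl

theorem tameCoreMod_w : (tameCoreMod hqM hA p h5 hp5 hpq).w = wqJHom hqM := rfl

end Rfl

/-- **the tame core exists at every level `N`, `r ∥ N`, `r ≥ 5`**, `p ≥ 5` prime, `p ≠ r`:
`N = M * r` with `r ∤ M`. -/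
theorem tameCore_exists (N : ℕ) [NeZero N] (r p : ℕ) (hr : r.Prime) (h5 : 5 ≤ r) (hrN : r ∣ N)
    (hr2 : ¬ r ^ 2 ∣ N) (hp : p.Prime) (hp5 : 5 ≤ p) (hpr : p ≠ r)
    (A : ValuationSubring Qb) (hA : A.LiesOverPrime r) : Nonempty (TameCore N r p A) := by
  obtain ⟨M, rfl⟩ := hrN
  have hM : M ≠ 0 := fun h => (NeZero.ne (r * M)) (by rw [h, mul_zero])
  have hrM : ¬ r ∣ M := fun ⟨M', hM'⟩ => hr2 ⟨M', by rw [hM']; ring⟩
  haveI : NeZero M := ⟨hM⟩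
  haveI : NeZero r := ⟨hr.ne_zero⟩
  haveI : Fact r.Prime := ⟨hr⟩
  haveI : Fact p.Prime := ⟨hp⟩
  have key : ∀ (N' : ℕ) (_ : M * r = N') [NeZero N'], Nonempty (TameCore N' r p A) := by
    intro N' h _
    subst h
    exact ⟨tameCoreMod hrM hA p h5 hp5 hpr⟩
  exact key (r * M) (mul_comm M r)

/-- **the tame core exists at every level `N` with `3 ∥ N`, `4 ∣ N`**, `p ≥ 5` prime. -/
theorem tameCore_exists_three (N : ℕ) [NeZero N] (p : ℕ) (h3N : 3 ∣ N) (h9 : ¬ 3 ^ 2 ∣ N)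
    (h4 : 4 ∣ N) (hp : p.Prime) (hp5 : 5 ≤ p)
    (A : ValuationSubring Qb) (hA : A.LiesOverPrime 3) : Nonempty (TameCore N 3 p A) := by
  obtain ⟨M, rfl⟩ := h3N
  have hM : M ≠ 0 := fun h => (NeZero.ne (3 * M)) (by rw [h, mul_zero])
  have h3M : ¬ 3 ∣ M := fun ⟨M', hM'⟩ => h9 ⟨M', by rw [hM']; ring⟩
  have h4M : 4 ∣ M := (Nat.Coprime.dvd_mul_left (by norm_num : Nat.Coprime 4 3)).1 h4
  haveI : NeZero M := ⟨hM⟩
  haveI : Fact p.Prime := ⟨hp⟩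
  have key : ∀ (N' : ℕ) (_ : M * 3 = N') [NeZero N'], Nonempty (TameCore N' 3 p A) := by
    intro N' h _
    subst h
    exact ⟨tameCoreThree h3M hA p rfl h4M hp5⟩
  exact key (3 * M) (mul_comm M 3)

end Fermat.Agent.S43lib.B0
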