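/-
S43lib / B0 / Pkg / Geom  (helper6)  — Project H, block B0 (Mazur's principle).

`TameGeomStmt` (of `B0/Iface.lean`) FROM THE SINGLE REMAINING INPUT `TameOldStmt`:

* `TameCore.toPackage` : `TameCore` + `old` ⇒ `TamePackage`;
* `TameOldStmt`        : the field `old` for the concrete model `tameCoreMod` at level `M q`
  (a non-zero residue-free Hecke eigenvector `Ψ x` of `Ω`, `x ∈ J₀(M q)[p]`, with a non-Eisenstein
  eigenvalue comes from a normalized eigenform of level `M q / q`)      — helper8, `B0/Lift/Old`;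
* **`tameGeomStmt_of_old : TameOldStmt → TameGeomStmt`**.
-/
import Fermat.Agent.S43lib.B0.Iface
import Fermat.Agent.S43lib.B0.Pkg.Core

set_option autoImplicit false
set_option linter.unusedSectionVars false
set_option linter.style.haveILetI false

noncomputable section

namespace Fermat.Agent.S43lib.B0

open AlgebraicCurve ModularCurve Fermat.Agent.S18lib Fermat.Agent.S19lib
open Fermat.Agent.S33lib Fermat.Agent.S44lib Fermat.Agent.S44lib.Kap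

local notation "Qb" => AlgebraicClosure ℚ
local notation "GQ" => (AlgebraicClosure ℚ ≃ₐ[ℚ] AlgebraicClosure ℚ)
local notation "Zbar" => integralClosure ℤ ℂ

/-- the field `old` of `TamePackage`, for a core `C` -/
def TameCore.OldStmt {N : ℕ} [NeZero N] {r p : ℕ} {A : ValuationSubring Qb}
    (C : TameCore N r p A) : Prop :=
  ∀ x ∈ tors N (p : ℤ), C.Ψ x ≠ 0 → C.res (C.Ψ x) = 0 → ∀ (a : ℕ → ℤ) (S : ℕ → Prop),
    (∀ ℓ, S ℓ → ℓ.Prime ∧ ¬ ℓ ∣ N ∧ ℓ ≠ p) →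
    (∃ ℓ, S ℓ ∧ ¬ (p : ℤ) ∣ a ℓ - (ℓ + 1)) →
    (∀ (ℓ : ℕ) (hℓ : ℓ.Prime), S ℓ → C.TΩ ⟨ℓ, hℓ⟩ (C.Ψ x) = (a ℓ) • C.Ψ x) →
    ∃ (g : CuspForm (CongruenceSubgroup.Gamma0 (N / r)) 2) (𝔪 : Ideal Zbar),
      g.IsNormalizedEigenform ∧ 𝔪.IsMaximal ∧ (p : Zbar) ∈ 𝔪 ∧ CongruentTo g 𝔪 a S

/-- **`TameCore` + `old` ⇒ `TamePackage`** -/
def TameCore.toPackage {N : ℕ} [NeZero N] {r p : ℕ} {A : ValuationSubring Qb}
    (C : TameCore N r p A) (hold : C.OldStmt) : TamePackage N r p A where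
  Ω := C.Ω
  R := C.R
  Ψ := C.Ψ
  res := C.res
  TΩ := C.TΩ
  TR := C.TR
  Eis := C.Eis
  K := C.K
  w := C.w
  Ψ_add := C.Ψ_add
  Ψ_hecke := C.Ψ_hecke
  res_hecke := C.res_hecke
  K_le := C.K_le
  mem_K := C.mem_K
  p_smul_R := C.p_smul_R
  mono := C.mono
  eis := C.eis
  old := hold
  w_galois := C.w_galois
  w_invol := C.w_invol
  frobK := C.frobK

/-- **the remaining input of `TameGeomStmt`**: `old` for the concrete model at level `M q`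
(`q ≥ 5`, `q ∤ M`, `A ∣ q`, `p ≥ 5` prime, `p ≠ q`):  with `Ψ = tPsi hqM hA p = Kap.psi (Kap.modNod hqM hA) p`,
`res = tRes hqM hA p = Kap.resMap (Kap.modNod hqM hA) p`, `TΩ ℓ = tTΩ A M p ℓ = Q4.heckeOmPair A M ℓ p`. -/
def TameOldStmt : Prop :=
  ∀ (M q : ℕ) [NeZero M] [NeZero q] [Fact q.Prime] (A : ValuationSubring Qb)
    (hqM : ¬ q ∣ M) (hA : A.LiesOverPrime q) (_h5 : 5 ≤ q) (p : ℕ) [Fact p.Prime] (_hp5 : 5 ≤ p)
    (_hpq : p ≠ q),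
    ∀ x ∈ tors (M * q) (p : ℤ), tPsi hqM hA p x ≠ 0 → tRes hqM hA p (tPsi hqM hA p x) = 0 →
    ∀ (a : ℕ → ℤ) (S : ℕ → Prop),
    (∀ ℓ, S ℓ → ℓ.Prime ∧ ¬ ℓ ∣ M * q ∧ ℓ ≠ p) →
    (∃ ℓ, S ℓ ∧ ¬ (p : ℤ) ∣ a ℓ - (ℓ + 1)) →
    (∀ (ℓ : ℕ) (hℓ : ℓ.Prime), S ℓ →
      tTΩ A M p ⟨ℓ, hℓ⟩ (tPsi hqM hA p x) = (a ℓ) • tPsi hqM hA p x) →
    ∃ (g : CuspForm (CongruenceSubgroup.Gamma0 (M * q / q)) 2) (𝔪 : Ideal Zbar),
      g.IsNormalizedEigenform ∧ 𝔪.IsMaximal ∧ (p : Zbar) ∈ 𝔪 ∧ CongruentTo g 𝔪 a S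

/-- **`TameGeomStmt` from `TameOldStmt`** -/
theorem tameGeomStmt_of_old (hold : TameOldStmt) : TameGeomStmt := by
  intro N _ r p hr h5 hrN hr2 hp hp5 hpr A hA
  obtain ⟨M, rfl⟩ := hrN
  have hM : M ≠ 0 := fun h => (NeZero.ne (r * M)) (by rw [h, mul_zero])
  have hrM : ¬ r ∣ M := fun ⟨M', hM'⟩ => hr2 ⟨M', by rw [hM']; ring⟩
  haveI : NeZero M := ⟨hM⟩
  haveI : NeZero r := ⟨hr.ne_zero⟩
  haveI : Fact r.Prime := ⟨hr⟩
  haveI : Fact p.Prime := ⟨hp⟩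
  have key : ∀ (N' : ℕ) (_ : M * r = N') [NeZero N'], Nonempty (TamePackage N' r p A) := by
    intro N' h _
    subst h
    exact ⟨(tameCoreMod hrM hA p h5 hp5 hpr).toPackage
      (hold M r A hrM hA h5 p hp5 hpr)⟩
  exact key (r * M) (mul_comm M r)

end Fermat.Agent.S43lib.B0
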