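/-
S43lib / B0 / Pkg / MazurLarge  (helper6)  — Project H, block B0: **MAZUR'S PRINCIPLE AT `r ≥ 5`**, assembled
from the block statements of `B0/Iface.lean`:

* `q1GenStmt`, `decompFrobStmt`, `detFrobStmt`, `badPrimeStmt`  (helper8's `B0/Arith.lean`, from helper4/helper5);
* `S44lib.Q1.nonEisStmt`                                          (helper5);
* `tameGeomStmt`                                                  (`Pkg/TameGeom.lean`).

**`mazurLargeStmt : MazurLargeStmt`.**
-/
import Fermat.Agent.S43lib.B0.Arith
import Fermat.Agent.S43lib.B0.Pkg.TameGeom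
import Fermat.Agent.S44lib.Q1.NonEis

set_option autoImplicit false

noncomputable section

namespace Fermat.Agent.S43lib.B0

/-- **Mazur's principle at the primes `r ≥ 5`** (`r ∥ N`, `ρ̄` unramified at `r`, `r ≢ 1 (p)` or the
decomposition group not scalar ⇒ the level `N` can be lowered to `N / r`). -/
theorem mazurLargeStmt : MazurLargeStmt :=
  mazur_of_stmts q1GenStmt Fermat.Agent.S44lib.Q1.nonEisStmt tameGeomStmt decompFrobStmt detFrobStmt
    badPrimeStmt

end Fermat.Agent.S43lib.B0
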