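/-
S43lib / B0 / Pkg / TorsEigen  (helper6)  — Project H, block B0 (Mazur's principle): `TorsEigenToForm`.

**A NON-ZERO HECKE EIGENCLASS OF `J₀(M)[p]` COMES FROM A NORMALIZED EIGENFORM OF LEVEL `M`.**

`x ∈ J₀(M)(ℚ̄)[p]`, `x ≠ 0`, `T_ℓ x = a_ℓ x` (`a_ℓ ∈ ℤ`) for the primes `ℓ ∈ S`, `ℓ ∤ M`.  Then there are a
normalized eigenform `g ∈ S₂(Γ₀(M))` and a maximal ideal `𝔪 ∋ p` of `ℤ̄` with `a_ℓ(g) ≡ a_ℓ (mod 𝔪)` on `S`.

Route: the Kummer comparison `κ : J₀(M)[p] ≃ (ℤ/p)^r` of `S29lib` (`S35lib.New.comparisonDataAt`, Hecke =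
the integer matrices `tMat` of the lattice `V_ℤ` of parabolic homomorphisms) turns `x` into a common
eigenvector mod `p` of the `tMat ℓ`; the Deligne–Serre lifting lemma (`S48lib.DS.exists_eigen_lift`) gives
an eigenvector in `ℂ^r` with eigenvalues `b_ℓ ∈ ℤ̄` and a place `ψ : ℤ̄ → 𝔽̄_p` with `ψ b_ℓ = a_ℓ`;
Eichler–Shimura (`S29lib.H.coordEquiv : ℂ^r ≃ S₂ × S₂`, `coordEquiv_tMat`) gives a non-zero cusp form with
`T_ℓ f = b_ℓ f` on `S`; the full Hecke algebra is commutative, so its eigenspace contains an eigenvector of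
all Hecke operators, which is normalised by `S41lib.NEW.exists_normalizedEigenform_full`.

* `exists_modp_eigenvector`  : the common eigenvector of the `tMat ℓ` modulo `p`;
* `exists_complex_eigenvector`: Deligne–Serre;
* **`exists_eigenform_of_torsion_eigenclass`**.
-/
import Fermat.Agent.S35lib.New.KillerJ
import Fermat.Agent.S48lib.DS.LiftEigen
import Fermat.Agent.S41lib.NEW.Packaging
import Fermat.Agent.S44lib.Iface

set_option autoImplicit false
set_option linter.unusedSectionVars false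
set_option linter.style.haveILetI false

noncomputable section

namespace Fermat.Agent.S43lib.B0

open ModularCurve CongruenceSubgroup Fermat.Agent.S29lib Fermat.Agent.S44lib

local notation "Qb" => AlgebraicClosure ℚ
local notation "Zbar" => integralClosure ℤ ℂ

/-! ### Deligne–Serre for integer matrices -/

section DS

variable {r : ℕ}

/-- the integral lattice `ℤ^r ⊆ ℂ^r` -/
def intLat (r : ℕ) : Submodule ℤ (Fin r → ℂ) :=
  LinearMap.range (LinearMap.pi fun i => (Int.castAddHom ℂ).toIntLinearMap ∘ₗ LinearMap.proj i :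
    (Fin r → ℤ) →ₗ[ℤ] (Fin r → ℂ))

theorem mem_intLat {x : Fin r → ℂ} : x ∈ intLat r ↔ ∃ w : Fin r → ℤ, x = fun i => (w i : ℂ) := by
  constructor
  · rintro ⟨w, rfl⟩
    exact ⟨w, rfl⟩
  · rintro ⟨w, rfl⟩
    exact ⟨w, rfl⟩

instance : Module.Finite ℤ (intLat r) := Module.Finite.range _

/-- the sublattice `n ℤ^r` -/
def intLatMul (r : ℕ) (n : ℤ) : Submodule ℤ (Fin r → ℂ) :=
  (intLat r).map (DistribSMul.toLinearMap ℤ (Fin r → ℂ) n)

theorem mem_intLatMul {n : ℤ} {x : Fin r → ℂ} :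
    x ∈ intLatMul r n ↔ ∃ w : Fin r → ℤ, x = fun i => ((n * w i : ℤ) : ℂ) := by
  constructor
  · rintro ⟨y, hy, rfl⟩
    obtain ⟨w, rfl⟩ := mem_intLat.1 hy
    refine ⟨w, funext fun i => ?_⟩
    show n • ((w i : ℂ)) = _
    rw [zsmul_eq_mul, Int.cast_mul]
  · rintro ⟨w, rfl⟩
    refine ⟨fun i => (w i : ℂ), mem_intLat.2 ⟨w, rfl⟩, funext fun i => ?_⟩
    show n • ((w i : ℂ)) = _
    rw [zsmul_eq_mul, Int.cast_mul]

theorem toLin'_intCast_apply (t : Matrix (Fin r) (Fin r) ℤ) (w : Fin r → ℤ) :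
    Matrix.toLin' (t.map (Int.cast : ℤ → ℂ)) (fun i => (w i : ℂ)) =
      fun i => ((t.mulVec w i : ℤ) : ℂ) := by
  funext i
  rw [Matrix.toLin'_apply, Matrix.mulVec, Matrix.mulVec, dotProduct, dotProduct, Int.cast_sum]
  refine Finset.sum_congr rfl fun j _ => ?_
  rw [Matrix.map_apply, Int.cast_mul]

/-- **Deligne–Serre for commuting integer matrices**: a common eigenvector modulo `p` (eigenvalues
`a i ∈ ℤ`) lifts to a common eigenvector over `ℂ` with eigenvalues `b i ∈ ℤ̄`, `b i ≡ a i` modulo a maximal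
ideal `𝔪 ∋ p` of `ℤ̄`. -/
theorem exists_eigen_of_modp {ι : Type*} (t : ι → Matrix (Fin r) (Fin r) ℤ)
    (hcomm : ∀ i j, Matrix.toLin' ((t i).map (Int.cast : ℤ → ℂ)) *
        Matrix.toLin' ((t j).map (Int.cast : ℤ → ℂ)) =
      Matrix.toLin' ((t j).map (Int.cast : ℤ → ℂ)) * Matrix.toLin' ((t i).map (Int.cast : ℤ → ℂ)))
    {p : ℕ} (hp : p.Prime) (v : Fin r → ℤ) (hv : ∃ i, ¬ (p : ℤ) ∣ v i) (a : ι → ℤ)
    (ha : ∀ i k, (p : ℤ) ∣ (t i).mulVec v k - a i * v k) :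
    ∃ (g : Fin r → ℂ) (b : ι → Zbar) (𝔪 : Ideal Zbar), g ≠ 0 ∧ 𝔪.IsMaximal ∧ (p : Zbar) ∈ 𝔪 ∧
      (∀ i, Matrix.toLin' ((t i).map (Int.cast : ℤ → ℂ)) g = (b i : ℂ) • g) ∧
      ∀ i, b i - ((a i : ℤ) : Zbar) ∈ 𝔪 := by
  classical
  haveI : Fact p.Prime := ⟨hp⟩
  -- the residue field and the place
  let k := AlgebraicClosure (ZMod p)
  haveI : CharP k p := by
    haveI : Algebra (ZMod p) k := inferInstance
    exact charP_of_injective_algebraMap (algebraMap (ZMod p) k).injective p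
  obtain ⟨φ, hφ⟩ : ∃ φ : Zbar →+* k, ∀ n : ℤ, φ (algebraMap ℤ Zbar n) = Int.castRingHom k n :=
    Fermat.Agent.S48lib.DS.exists_extension_of_integral (B := ℤ) (C := Zbar)
      (FaithfulSMul.algebraMap_injective ℤ Zbar) (Int.castRingHom k)
  -- the subring of integers
  set R : Subring ℂ := (Int.castRingHom ℂ).range with hRdef
  have hR : ∀ r ∈ R, IsIntegral ℤ r := by
    rintro _ ⟨n, rfl⟩
    exact isIntegral_algebraMap (R := ℤ) (A := ℂ) (x := n)
  have hφR : ∀ (n : ℤ) (h : (n : ℂ) ∈ R), φ ⟨(n : ℂ), hR _ h⟩ = (n : k) := by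
    intro n h
    have : (⟨(n : ℂ), hR _ h⟩ : Zbar) = algebraMap ℤ Zbar n := Subtype.ext (by simp)
    rw [this, hφ]
    rfl
  set T : ι → Module.End ℂ (Fin r → ℂ) := fun i => Matrix.toLin' ((t i).map (Int.cast : ℤ → ℂ))
    with hT
  set g₀ : Fin r → ℂ := fun i => (v i : ℂ) with hg₀
  have hspan : Submodule.span ℂ ((intLat r : Submodule ℤ (Fin r → ℂ)) : Set (Fin r → ℂ)) = ⊤ := by
    rw [eq_top_iff]
    intro x _
    rw [← (Pi.basisFun ℂ (Fin r)).sum_repr x]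
    refine Submodule.sum_mem _ fun i _ => Submodule.smul_mem _ _ (Submodule.subset_span ?_)
    refine mem_intLat.2 ⟨Pi.single i 1, ?_⟩
    funext j
    rw [Pi.basisFun_apply]
    by_cases hij : j = i
    · subst hij; simp
    · simp [hij]
  have hmemR : ∀ n : ℤ, (n : ℂ) ∈ R := fun n => ⟨n, rfl⟩
  obtain ⟨g', b, ψ, hg', hb, hψR, hψb⟩ := Fermat.Agent.S48lib.DS.exists_eigen_lift R hR T hcomm
    (intLat r)
    (by
      rintro _ ⟨n, rfl⟩ x hx
      obtain ⟨w, rfl⟩ := mem_intLat.1 hx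
      refine mem_intLat.2 ⟨fun i => n * w i, funext fun i => ?_⟩
      show ((Int.castRingHom ℂ) n) • ((w i : ℂ)) = _
      simp)
    (by
      intro i x hx
      obtain ⟨w, rfl⟩ := mem_intLat.1 hx
      rw [hT]
      exact mem_intLat.2 ⟨_, toLin'_intCast_apply (t i) w⟩)
    hspan φ (intLatMul r p)
    (by
      rintro _ ⟨n, rfl⟩ x hx
      obtain ⟨w, rfl⟩ := mem_intLatMul.1 hx
      refine mem_intLatMul.2 ⟨fun i => n * w i, funext fun i => ?_⟩
      show ((Int.castRingHom ℂ) n) • (((p * w i : ℤ)) : ℂ) = _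
      simp only [eq_intCast, smul_eq_mul, Int.cast_mul, Int.cast_natCast]
      ring)
    (by
      intro i x hx
      obtain ⟨w, rfl⟩ := mem_intLatMul.1 hx
      refine mem_intLatMul.2 ⟨(t i).mulVec w, ?_⟩
      rw [hT]
      show Matrix.toLin' ((t i).map (Int.cast : ℤ → ℂ)) (fun j => (((p : ℤ) * w j : ℤ) : ℂ)) = _
      rw [toLin'_intCast_apply]
      funext j
      congr 1
      show (t i).mulVec (fun j => (p : ℤ) * w j) j = (p : ℤ) * (t i).mulVec w j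
      have : (fun j => (p : ℤ) * w j) = (p : ℤ) • w := rfl
      rw [this, Matrix.mulVec_smul]
      rfl)
    g₀
    (by
      rintro _ ⟨n, rfl⟩ hn
      obtain ⟨w, hw⟩ := mem_intLatMul.1 hn
      obtain ⟨i, hi⟩ := hv
      have h1 := congrFun hw i
      have h2 : n * v i = p * w i := by
        have : ((n * v i : ℤ) : ℂ) = ((p * w i : ℤ) : ℂ) := by
          rw [← h1]
          show _ = ((Int.castRingHom ℂ) n) • ((v i : ℂ))
          simp
        exact_mod_cast this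
      have h3 : (p : ℤ) ∣ n := by
        have hpp : Prime (p : ℤ) := Nat.prime_iff_prime_int.mp hp
        rcases hpp.dvd_or_dvd (Dvd.intro _ h2.symm) with h | h
        · exact h
        · exact absurd h hi
      have h4 := hφR n (hmemR n)
      have h5 : ((n : ℤ) : k) = 0 := by
        rw [CharP.intCast_eq_zero_iff k p]
        exact h3
      exact h4.trans h5)
    (fun i => ⟨(a i : ℂ), hmemR (a i)⟩)
    (by
      intro i
      choose w hw using ha i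
      refine mem_intLatMul.2 ⟨w, ?_⟩
      rw [hT, hg₀]
      show Matrix.toLin' ((t i).map (Int.cast : ℤ → ℂ)) (fun j => (v j : ℂ)) -
        ((a i : ℂ)) • (fun j => (v j : ℂ)) = _
      rw [toLin'_intCast_apply]
      funext j
      rw [Pi.sub_apply, Pi.smul_apply, smul_eq_mul, ← hw j]
      push_cast
      ring)
  -- the maximal ideal
  have hψint : ∀ n : ℤ, ψ (algebraMap ℤ Zbar n) = (n : k) := by
    intro n
    have h1 := hψR (n : ℂ) (hmemR n)
    have : (⟨(n : ℂ), hR _ (hmemR n)⟩ : Zbar) = algebraMap ℤ Zbar n := Subtype.ext (by simp)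
    rw [this] at h1
    rw [h1, ← this]
    exact hφR n (hmemR n)
  refine ⟨g', b, RingHom.ker ψ, hg', ?_, ?_, hb, fun i => ?_⟩
  · -- maximality: `ℤ̄ / ker ψ` is a domain integral over `𝔽_p`
    haveI hprime : (RingHom.ker ψ).IsPrime := RingHom.ker_isPrime ψ
    have hpmem : ((p : ℤ) : ℤ) ∈ (RingHom.ker ψ).comap (algebraMap ℤ Zbar) := by
      rw [Ideal.mem_comap, RingHom.mem_ker, hψint]
      exact_mod_cast CharP.cast_eq_zero k p
    have hcomap : (RingHom.ker ψ).comap (algebraMap ℤ Zbar) = Ideal.span {(p : ℤ)} := by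
      have hmax : (Ideal.span {(p : ℤ)}).IsMaximal :=
        PrincipalIdealRing.isMaximal_of_irreducible
          (Nat.prime_iff_prime_int.mp hp).irreducible
      have hle : Ideal.span {(p : ℤ)} ≤ (RingHom.ker ψ).comap (algebraMap ℤ Zbar) :=
        (Ideal.span_singleton_le_iff_mem _).2 hpmem
      exact (hmax.eq_of_le (Ideal.comap_ne_top _ hprime.ne_top) hle).symm
    have hmax' : ((RingHom.ker ψ).comap (algebraMap ℤ Zbar)).IsMaximal := by
      rw [hcomap]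
      exact PrincipalIdealRing.isMaximal_of_irreducible
        (Nat.prime_iff_prime_int.mp hp).irreducible
    exact Ideal.isMaximal_of_isIntegral_of_isMaximal_comap (R := ℤ) (RingHom.ker ψ) hmax'
  · rw [RingHom.mem_ker]
    have := hψint (p : ℤ)
    rw [show (algebraMap ℤ Zbar ((p : ℕ) : ℤ)) = ((p : ℕ) : Zbar) by simp] at this
    rw [this]
    exact_mod_cast CharP.cast_eq_zero k p
  · rw [RingHom.mem_ker, map_sub, hψb i, sub_eq_zero]
    have h1 := hφR (a i) (hmemR (a i))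
    have h2 := hψint (a i)
    rw [show (algebraMap ℤ Zbar (a i)) = ((a i : ℤ) : Zbar) by simp] at h2
    rw [h2]
    exact h1

end DS

variable (M : ℕ) [NeZero M]

/-- **the common eigenvector modulo `p`** of the lattice Hecke matrices attached to a Hecke eigenclass of
`J₀(M)[p]` -/
theorem exists_modp_eigenvector {p : ℕ} (hp : p.Prime) {x : JZero M} (hx0 : x ≠ 0)
    (hpx : p • x = 0) (a : ℕ → ℤ) (S : ℕ → Prop) (hS : ∀ ℓ, S ℓ → ℓ.Prime ∧ ¬ ℓ ∣ M)
    (hT : ∀ (ℓ : ℕ) (hℓ : ℓ.Prime), S ℓ → heckeOperatorBar M ⟨ℓ, hℓ⟩ x = a ℓ • x) :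
    ∃ v : Fin (K3.rank M) → ℤ, (∃ i, ¬ (p : ℤ) ∣ v i) ∧
      ∀ (ℓ : ℕ) (hℓ : ℓ.Prime), S ℓ → ∀ i,
        (p : ℤ) ∣ (H.tMat (D.vzBasis M) ⟨ℓ, hℓ⟩).mulVec v i - a ℓ * v i := by
  classical
  set C := S35lib.New.comparisonDataAt M hp with hC
  have hxT : x ∈ Tors M (p ^ 1) := by
    rw [Submodule.mem_torsionBy_iff, pow_one, natCast_zsmul]
    exact hpx
  set vb : Fin C.r → ZMod (p ^ 1) := C.κ 1 ⟨x, hxT⟩ with hvb
  have hvb0 : vb ≠ 0 := by
    intro h0
    have : (⟨x, hxT⟩ : Tors M (p ^ 1)) = 0 := (C.κ 1).injective (by rw [← hvb, h0, map_zero])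
    exact hx0 (congrArg Subtype.val this)
  -- an integer lift
  have hlift : ∀ z : ZMod (p ^ 1), ∃ n : ℤ, (n : ZMod (p ^ 1)) = z := ZMod.intCast_surjective
  choose lift hlift' using hlift
  refine ⟨fun i => lift (vb i), ?_, ?_⟩
  · by_contra hall
    push Not at hall
    apply hvb0
    funext i
    rw [← hlift' (vb i), Pi.zero_apply, ZMod.intCast_zmod_eq_zero_iff_dvd, pow_one]
    exact hall i
  · intro ℓ hℓ hSℓ i
    have hℓM : ¬ ℓ ∣ M := (hS ℓ hSℓ).2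
    have h1 := C.κ_hecke 1 ⟨ℓ, hℓ⟩ ⟨x, hxT⟩
    have h2 : C.TJ ⟨ℓ, hℓ⟩ x = a ℓ • x := by
      rw [C.TJ_good ⟨ℓ, hℓ⟩ hℓM x, hT ℓ hℓ hSℓ]
    have h3 : (⟨C.TJ ⟨ℓ, hℓ⟩ x, map_mem_Tors (C.TJ ⟨ℓ, hℓ⟩) hxT⟩ : Tors M (p ^ 1)) =
        a ℓ • (⟨x, hxT⟩ : Tors M (p ^ 1)) := Subtype.ext h2
    rw [h3, map_zsmul] at h1
    have h4 := congrFun h1 i
    rw [← hvb] at h4
    -- compare modulo `p`
    rw [← pow_one (p : ℤ)]
    have hcast : ((p : ℤ) ^ 1) = ((p ^ 1 : ℕ) : ℤ) := by push_cast; rfl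
    rw [hcast, ← ZMod.intCast_zmod_eq_zero_iff_dvd, Int.cast_sub, Int.cast_mul, hlift', sub_eq_zero]
    have h5 : (((H.tMat (D.vzBasis M) ⟨ℓ, hℓ⟩).mulVec (fun i => lift (vb i)) i : ℤ) :
        ZMod (p ^ 1)) =
        ((C.t ⟨ℓ, hℓ⟩).map (Int.cast : ℤ → ZMod (p ^ 1))).mulVec vb i := by
      rw [Matrix.mulVec, Matrix.mulVec, dotProduct, dotProduct, Int.cast_sum]
      refine Finset.sum_congr rfl fun j _ => ?_
      rw [Int.cast_mul, hlift', Matrix.map_apply]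
      rfl
    rw [h5, ← h4, Pi.smul_apply, zsmul_eq_mul]

open CuspForm ModularFormClass Fermat.Agent.Helper8 in
/-- **`TorsEigenToForm`**: a non-zero class `x ∈ J₀(M)(ℚ̄)[p]` which is an eigenvector of the `T_ℓ`, `ℓ ∈ S`
(`ℓ ∤ M`), with eigenvalues `a_ℓ ∈ ℤ` comes from a normalized eigenform `g` of level `M`:
`a_ℓ(g) ≡ a_ℓ` modulo a maximal ideal `𝔪 ∋ p` of `ℤ̄`, `ℓ ∈ S`. -/
theorem exists_eigenform_of_torsion_eigenclass (p : ℕ) [Fact p.Prime] (x : JZero M) (hx0 : x ≠ 0)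
    (hpx : p • x = 0) (a : ℕ → ℤ) (S : ℕ → Prop) (hS : ∀ ℓ, S ℓ → ℓ.Prime ∧ ¬ ℓ ∣ M)
    (hT : ∀ (ℓ : ℕ) (hℓ : ℓ.Prime), S ℓ → heckeOperatorBar M ⟨ℓ, hℓ⟩ x = a ℓ • x) :
    ∃ (g : CuspForm (Gamma0 M) 2) (𝔪 : Ideal Zbar), g.IsNormalizedEigenform ∧ 𝔪.IsMaximal ∧
      (p : Zbar) ∈ 𝔪 ∧ CongruentTo g 𝔪 a S := by
  classical
  have hp : p.Prime := Fact.out
  obtain ⟨v, hv, hva⟩ := exists_modp_eigenvector M hp hx0 hpx a S hS hT
  -- the index set
  let ι := {ℓ : ℕ // S ℓ}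
  have hpr : ∀ i : ι, i.1.Prime := fun i => (hS i.1 i.2).1
  have hnd : ∀ i : ι, ¬ i.1 ∣ M := fun i => (hS i.1 i.2).2
  let P : ι → Nat.Primes := fun i => ⟨i.1, hpr i⟩
  let t : ι → Matrix (Fin (K3.rank M)) (Fin (K3.rank M)) ℤ := fun i => H.tMat (D.vzBasis M) (P i)
  have hS2 : ∀ i : ι, H.heckeS2 M (P i) = heckeTLin 2 (hpr i) (hnd i) := fun i =>
    H.heckeS2_of_not_dvd M (ℓ := P i) (hnd i)
  -- the lattice Hecke matrices commute (transport from `S₂ × S₂`)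
  have hcomm : ∀ i j, Matrix.toLin' ((t i).map (Int.cast : ℤ → ℂ)) *
        Matrix.toLin' ((t j).map (Int.cast : ℤ → ℂ)) =
      Matrix.toLin' ((t j).map (Int.cast : ℤ → ℂ)) *
        Matrix.toLin' ((t i).map (Int.cast : ℤ → ℂ)) := by
    intro i j
    apply LinearMap.ext
    intro c
    apply (H.coordEquiv M (D.vzBasis M)).injective
    rw [Module.End.mul_apply, Module.End.mul_apply, H.coordEquiv_tMat, H.coordEquiv_tMat,
      H.coordEquiv_tMat, H.coordEquiv_tMat, hS2 i, hS2 j]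
    have hc := (heckeTLin_comm 2 (hpr i) (hnd i) (hpr j) (hnd j)).eq
    refine Prod.ext ?_ ?_
    · exact LinearMap.congr_fun hc _
    · exact LinearMap.congr_fun hc _
  -- Deligne–Serre
  obtain ⟨g', b, 𝔪, hg', h𝔪, hp𝔪, hb, hba⟩ := exists_eigen_of_modp t hcomm hp v hv
    (fun i => a i.1) (fun i k => hva i.1 (hpr i) i.2 k)
  -- Eichler–Shimura: a non-zero cusp form
  have hpair : H.coordEquiv M (D.vzBasis M) g' ≠ 0 := by
    intro h0
    exact hg' ((H.coordEquiv M (D.vzBasis M)).injective (by rw [h0, map_zero]))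
  have hpairT : ∀ i : ι,
      (heckeTLin 2 (hpr i) (hnd i)).prodMap (heckeTLin 2 (hpr i) (hnd i))
        (H.coordEquiv M (D.vzBasis M) g') = (b i : ℂ) • H.coordEquiv M (D.vzBasis M) g' := by
    intro i
    rw [← hS2 i, ← H.coordEquiv_tMat, hb i, map_smul]
  obtain ⟨f, hf0, hfT⟩ : ∃ f : CuspForm (Gamma0 M) 2, f ≠ 0 ∧
      ∀ i : ι, heckeTLin 2 (hpr i) (hnd i) f = (b i : ℂ) • f := by
    by_cases h1 : (H.coordEquiv M (D.vzBasis M) g').1 = 0
    · refine ⟨(H.coordEquiv M (D.vzBasis M) g').2, fun h2 => hpair (Prod.ext h1 h2), fun i => ?_⟩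
      exact congrArg Prod.snd (hpairT i)
    · exact ⟨(H.coordEquiv M (D.vzBasis M) g').1, h1, fun i => congrArg Prod.fst (hpairT i)⟩
  -- the stable eigenspace
  let X : Submodule ℂ (CuspForm (Gamma0 M) 2) :=
    { carrier := {f | ∀ i : ι, heckeTLin 2 (hpr i) (hnd i) f = (b i : ℂ) • f}
      add_mem' := by
        intro f f' hf hf' i
        rw [map_add, hf i, hf' i, smul_add]
      zero_mem' := fun i => by rw [map_zero, smul_zero]
      smul_mem' := by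
        intro c f hf i
        rw [map_smul, hf i, smul_comm] }
  have hfX : f ∈ X := hfT
  have hX : X ≠ ⊥ := fun h0 => hf0 (by rw [h0] at hfX; exact (Submodule.mem_bot ℂ).mp hfX)
  have hstab : ∀ s : HeckeT M, ∀ f ∈ X, (s : Module.End ℂ (CuspForm (Gamma0 M) 2)) f ∈ X := by
    intro s f hf i
    have hc : heckeAlgebra.T (hpr i) (hnd i) (Set.notMem_empty i.1) * s =
        s * heckeAlgebra.T (hpr i) (hnd i) (Set.notMem_empty i.1) := mul_comm _ _
    have hc' := congrArg (fun s : HeckeT M =>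
      (s : Module.End ℂ (CuspForm (Gamma0 M) 2)) f) hc
    simp only [MulMemClass.coe_mul, heckeAlgebra.coe_T, Module.End.mul_apply] at hc'
    rw [hc', hf i, map_smul]
  obtain ⟨g, χ, hgX, hg0, hχ⟩ := S41lib.NEW.exists_eigenvector_of_stable X hX hstab
  obtain ⟨g'', hg''eig, hval⟩ := S41lib.NEW.exists_normalizedEigenform_full hg0 χ hχ
  have hcancel : ∀ {a b : ℂ}, a • g = b • g → a = b := by
    intro a b hab
    have : (a - b) • g = 0 := by rw [sub_smul, hab, sub_self]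
    rcases smul_eq_zero.mp this with h1 | h1
    · exact sub_eq_zero.mp h1
    · exact absurd h1 hg0
  refine ⟨g'', 𝔪, hg''eig, h𝔪, hp𝔪, fun ℓ hSℓ => ⟨b ⟨ℓ, hSℓ⟩, ?_, hba ⟨ℓ, hSℓ⟩⟩⟩
  rw [hval ℓ (hS ℓ hSℓ).1, eigenvalueFn, dif_pos (hS ℓ hSℓ).1, dif_neg (hS ℓ hSℓ).2]
  apply hcancel
  rw [← hχ, heckeAlgebra.coe_T]
  exact (hgX ⟨ℓ, hSℓ⟩).symm

end Fermat.Agent.S43lib.B0
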