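/-
S43lib / B0 / Pkg / TameGeom  (helper6)  — Project H, block B0 (Mazur's principle): **THE GEOMETRY OF B0 IS
CLOSED**:

* `torsEigenStmt : Lift.TorsEigenStmt`  (`Pkg/TorsEigen.lean`: Kummer comparison + Deligne–Serre +
  Eichler–Shimura + the full commutative Hecke algebra);
* `tameOldStmt  : TameOldStmt`          (helper8's `Lift/Old.lean`: `Ψ x ≠ 0`, `res = 0` ⇒ a non-zero Hecke
  eigenclass of `J₀(M)[p]`);
* **`tameGeomStmt : TameGeomStmt`**      (`Pkg/Geom.lean`: the tame package exists at every `r ≥ 5`, `r ∥ N`).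
-/
import Fermat.Agent.S43lib.B0.Lift.Old
import Fermat.Agent.S43lib.B0.Pkg.TorsEigen

set_option autoImplicit false
set_option linter.unusedSectionVars false

noncomputable section

namespace Fermat.Agent.S43lib.B0

open ModularCurve

/-- **`TorsEigenStmt`** (the pure Hecke statement of helper8's `Lift/Old.lean`) -/
theorem torsEigenStmt : Lift.TorsEigenStmt := by
  intro M _ p hp x hx0 hpx a S hS hT
  have : Fact p.Prime := ⟨hp⟩
  rw [natCast_zsmul] at hpx
  exact exists_eigenform_of_torsion_eigenclass M p x hx0 hpx a S hS hT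

/-- **`TameOldStmt`**: the field `old` of the tame package for the concrete model at level `M q` -/
theorem tameOldStmt : TameOldStmt := Lift.tameOldStmt_of_torsEigen torsEigenStmt

/-- **`TameGeomStmt`**: the tame package exists at every `r ≥ 5`, `r ∥ N`, `p ≥ 5`, `p ≠ r`. -/
theorem tameGeomStmt : TameGeomStmt := tameGeomStmt_of_old tameOldStmt

end Fermat.Agent.S43lib.B0
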